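import Fermat.Statements.S12
import Fermat.Agent.MS.STEP.S12Wire8
import Fermat.Agent.MS.PLACE.FreyCan1
import Fermat.Agent.MS.LOC.UnramProp5
import Fermat.Agent.MS.LOC.ThetaOut5

set_option autoImplicit false
open WeierstrassCurve WeierstrassCurve.Affine WeierstrassCurve.Affine.Point
open CuspForm ModularFormClass UpperHalfPlane
open FreyPackage

namespace Fermat.Agent.S12

theorem result (P : FreyPackage) (hp : 17 ≤ P.p) : ¬ HasGaloisStableCofixedLine (K := AlgebraicClosure ℚ) ℚ P.freyCurve P.p := by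
  exact Fermat.Agent.MS.STEP.S12Wire8.s12_of_four P hp
    (fun h => Fermat.Agent.MS.PLACE.FreyCan1.frey_baseCan P hp h)
    (fun _ => Fermat.Agent.MS.LOC.UnramProp5.unramProp_frey P)
    (fun h => Fermat.Agent.MS.PLACE.FreyCan1.frey_canPropagate P hp h)
    (fun _ => Fermat.Agent.MS.LOC.ThetaOut5.thetaOutProp_frey P)

end Fermat.Agent.S12
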