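-- Statement S44 (row 38): level lowering at `p` for the Frey representation at conductor level `N`
-- (`FreyPackage.level_lowering_at_p_of_conductorLevel`), via Programme MP (Ribet's argument on the
-- character group of the bad reduction of `J₀(M₀ p)`): `MP/FINAL/S44Done6.s44`, i.e.
-- `MP/FINAL/S44Eight6.s44_of_four8` (chapters HECKE, T3, PEU, TAU, CONN) fed with the chapters
-- FUNC (`DegOut9.degOut`, `AutSMain6.s1Gauss`) and TH (`THOut6.thOut`).
import Fermat.Statements.S44
import Fermat.Agent.MP.FINAL.S44Done6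

set_option autoImplicit false
open WeierstrassCurve WeierstrassCurve.Affine WeierstrassCurve.Affine.Point
open CuspForm ModularFormClass UpperHalfPlane
open FreyPackage

namespace Fermat.Agent.S44

theorem result (P : FreyPackage) {N : ℕ} (hcond : P.IsConductorLevel N) (hpN : P.p ∣ N) (hirr : GaloisRepIsIrreducible (K := AlgebraicClosure ℚ) ℚ P.freyCurve P.p) (hmod : P.ModularRepOfLevel N) : ∃ M : ℕ, M ∣ N ∧ ¬ P.p ∣ M ∧ P.ModularRepOfLevel M :=
  Fermat.Agent.MP.FINAL.S44Done6.s44 P hcond hpN hirr hmod

end Fermat.Agent.S44
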