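import Fermat.Statements.S52
import Fermat.Agent.S52.GFinal4
import Fermat.Agent.S52.Cert4Final1
import Fermat.Agent.S52.Fam5Coprime
import Fermat.Agent.S52.CongFinal1

set_option autoImplicit false
open WeierstrassCurve WeierstrassCurve.Affine WeierstrassCurve.Affine.Point
open CuspForm ModularFormClass UpperHalfPlane
open WeierstrassCurve

namespace Fermat.Agent.S52

theorem result (W : WeierstrassCurve ℤ) (hΔ : W.Δ ≠ 0) (hW : W.IsSemistableModel) (h5 : W.ModRepIsIrreducible 5) : ∃ W' : WeierstrassCurve ℤ, W'.Δ ≠ 0 ∧ W'.IsSemistableModel ∧ W'.ModRepIsIrreducible 3 ∧ ∀ ℓ : ℕ, ℓ.Prime → W.IsGoodPrimeFor ℓ → W'.IsGoodPrimeFor ℓ → ℓ ≠ 5 → (5 : ℤ) ∣ (W'.apOfModel ℓ - W.apOfModel ℓ) := by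
  by_cases h3 : W.ModRepIsIrreducible 3
  · exact ⟨W, hΔ, hW, h3, fun ℓ _ _ _ _ => by rw [sub_self]; exact dvd_zero _⟩
  · obtain ⟨e4, e6, eG, hrel, hcop, -⟩ := Fermat.Agent.S52.Fam5Coprime.fam_package W hΔ hW
    obtain ⟨θ, s, g, hs, hgs, hgθ, hθ⟩ :=
      Fermat.Agent.S52.Cert4Final1.exists_cert4 W hΔ hW
        (Fermat.Agent.S52.Fam5Poly.C6 W.c₄ W.c₆)
        (Fermat.Agent.S52.Fam5Coprime.hFAM W.c₄ W.c₆ (K := AlgebraicClosure ℚ))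
    obtain ⟨t, W', -, -, -, -, h4', h6', -, hΔ', hss', hirr'⟩ :=
      Fermat.Agent.S52.GFinal4.exists_irreducible_member W hΔ hW
        (Fermat.Agent.S52.Fam5Poly.C4 W.c₄ W.c₆) (Fermat.Agent.S52.Fam5Poly.C6 W.c₄ W.c₆)
        (Fermat.Agent.S52.Fam5Poly.Gp W.c₄ W.c₆) e4 e6 eG hrel hcop θ hθ g hgθ s hs hgs
    exact ⟨W', hΔ', hss', hirr',
      Fermat.Agent.S52.CongFinal1.cong_family W hΔ hW t W' hΔ' h4' h6'⟩

end Fermat.Agent.S52
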