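-- Statement S58 (row 52): conductor-level matching for a semistable integral Weierstrass model.
-- Programme Q (`Fermat/Agent/ES/Q58/`): `LocalOfEC12.s58_of_ecFacts` reduces the statement to the
-- package `ECIface12.ECFacts W` of two facts about the Galois action on the torsion of `W`:
--   * (E-ii) inertia (`InertiaAll7.inertia_all`: good primes `InertiaGood6`, multiplicative primes
--     `InertiaMult7`, weak link `WeakLink25`);
--   * (E-iii) trace (`TraceCong20.trace_of_rel`) from the Eichler-Shimura relation on the generic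
--     fibre `CharRel4.relQbar` = PART I (relation in characteristic `l` on `W(F_l-bar)`:
--     `XDeg1`, `RatComp2`, `XDegMul2`, `FieldDeg3`, `Sep4`, `Manin3/4`, `ManinDeg4`, `GenericRel2`)
--     + PART II (reduction homomorphism on torsion, `RedHom5`, `RelQbar5`).
-- The hypotheses `hp2`, `hirr`, `hp2N` are not needed.
import Fermat.Statements.S58
import Fermat.Agent.ES.Q58.LocalOfEC12
import Fermat.Agent.ES.Q58.InertiaAll7
import Fermat.Agent.ES.Q58.CharRel4

set_option autoImplicit false
set_option autoImplicit false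
open WeierstrassCurve

namespace Fermat.Agent.S58

theorem result
    (W : WeierstrassCurve ℤ) (hss : W.IsSemistableModel) (N : ℕ)
    (p : ℕ) [Fact p.Prime] (hp2 : p ≠ 2) (hirr : W.ModRepIsIrreducible p)
    (hp2N : ¬ p ^ 2 ∣ N)
    (hN : W.IsModularModelOfLevel N) (hbad : ∀ ℓ : ℕ, ℓ.Prime → (ℓ : ℤ) ∣ W.Δ → ℓ ∣ N)
    (hN3 : ∀ q : ℕ, q.Prime → ¬ q ^ 3 ∣ N) :
    W.IsModularModelOfLevel W.conductorLevel := by
  have hΔ : W.Δ ≠ 0 :=
    Fermat.Agent.ES.Q58.TopA12.disc_ne_zero (Fermat.Agent.ES.Q58.TopA12.level_ne_zero hN3) hbad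
  exact Fermat.Agent.ES.Q58.LocalOfEC12.s58_of_ecFacts W N hN hbad hN3
    (Fermat.Agent.ES.Q58.InertiaAll7.ecFacts_of_trace W hΔ hss
      (Fermat.Agent.ES.Q58.TraceCong20.trace_of_rel W
        (Fermat.Agent.ES.Q58.CharRel4.relQbar W)))

end Fermat.Agent.S58
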